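import Fermat.Agent.JPC.Defs

/-!
# S25: invertibility of line data is invariant under isomorphisms
-/

set_option autoImplicit false

universe u

open TensorProduct

namespace Fermat.Agent.JDict

open Fermat.Agent.JPC

variable {k : Type u} [Field k] {X : TwoChart k} {B : Type u} [CommRing B] [Algebra k B]
  {L L' : PreLD X B}

theorem iso_smul0 (f : L.Iso L') (s : B ⊗[k] X.A0) (m : L.M) : f.e (s • m) = s • f.e m := by
  induction s using TensorProduct.induction_on with
  | zero => rw [zero_smul (B ⊗[k] X.A0) m, map_zero, zero_smul (B ⊗[k] X.A0) (f.e m)]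
  | tmul b a => rw [PreLD.tmul_smul0, PreLD.tmul_smul0, map_smul, f.smul]
  | add x y hx hy => rw [add_smul, add_smul, map_add, hx, hy]

theorem iso_smul1 (f : L.Iso L') (s : B ⊗[k] X.A1) (m : L.M) : f.e (s • m) = s • f.e m := by
  induction s using TensorProduct.induction_on with
  | zero => rw [zero_smul (B ⊗[k] X.A1) m, map_zero, zero_smul (B ⊗[k] X.A1) (f.e m)]
  | tmul b a => rw [PreLD.tmul_smul1, PreLD.tmul_smul1, map_smul, f.smul]
  | add x y hx hy => rw [add_smul, add_smul, map_add, hx, hy]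

theorem iso_mem0' (f : L.Iso L') (m : L.M) : f.e m ∈ L'.M0 ↔ m ∈ L.M0 := by
  rw [← f.map0]
  constructor
  · rintro ⟨m', hm', e⟩
    rwa [← f.e.injective e]
  · intro h
    exact ⟨m, h, rfl⟩

theorem iso_mem1' (f : L.Iso L') (m : L.M) : f.e m ∈ L'.M1 ↔ m ∈ L.M1 := by
  rw [← f.map1]
  constructor
  · rintro ⟨m', hm', e⟩
    rwa [← f.e.injective e]
  · intro h
    exact ⟨m, h, rfl⟩

/-- the isomorphism on `M0` -/
def isoM0 (f : L.Iso L') : L.M0' ≃ₗ[B ⊗[k] X.A0] L'.M0' where
  toFun m := ⟨f.e m, (iso_mem0' f m).2 m.2⟩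
  invFun m := ⟨f.e.symm m, (iso_mem0' f _).1 (by rw [LinearEquiv.apply_symm_apply]; exact m.2)⟩
  map_add' a b := Subtype.ext (map_add f.e _ _)
  map_smul' s a := Subtype.ext (iso_smul0 f s a)
  left_inv a := Subtype.ext (f.e.symm_apply_apply _)
  right_inv a := Subtype.ext (f.e.apply_symm_apply _)

/-- the isomorphism on `M1` -/
def isoM1 (f : L.Iso L') : L.M1' ≃ₗ[B ⊗[k] X.A1] L'.M1' where
  toFun m := ⟨f.e m, (iso_mem1' f m).2 m.2⟩
  invFun m := ⟨f.e.symm m, (iso_mem1' f _).1 (by rw [LinearEquiv.apply_symm_apply]; exact m.2)⟩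
  map_add' a b := Subtype.ext (map_add f.e _ _)
  map_smul' s a := Subtype.ext (iso_smul1 f s a)
  left_inv a := Subtype.ext (f.e.symm_apply_apply _)
  right_inv a := Subtype.ext (f.e.apply_symm_apply _)

theorem isLine_of_iso (h : L.IsLine) (f : L.Iso L') : L'.IsLine := by
  have := h.inv0
  have := h.inv1
  exact ⟨Module.Invertible.congr (isoM0 f), Module.Invertible.congr (isoM1 f)⟩

end Fermat.Agent.JDict
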