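import Fermat.Agent.JDict.IsoBC
import Fermat.Agent.JDict.IsoLine
import Fermat.Agent.JH.Charts
import Fermat.Agent.JC.Fun
import Fermat.Agent.JPb.ClMap
import Fermat.Agent.JE.BC
import Fermat.Agent.JE3.EA
import Fermat.Agent.JEr.RigLD

/-!
# S25: the dictionary between rigidified classes and line data
-/

set_option autoImplicit false
set_option maxHeartbeats 400000

noncomputable section

universe u

open CategoryTheory CategoryTheory.Limits AlgebraicGeometry TopologicalSpace Opposite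
open NeronModelInfra AlgebraicGeometry.RelPicard
open scoped TensorProduct

namespace Fermat.Agent.JDict

open Fermat.Agent.JPC Fermat.Agent.JKL Fermat.Agent.JCB Fermat.Agent.JE
open Fermat.Agent.JH (isoRefl isoSymm isoTrans rigIso sMap sOne)
open Fermat.Agent.JPb (Gen un cl)
open Fermat.Agent.JMod (H1)
open Fermat.Agent.JC (P)

theorem locFree_of_isInvertible {Y : Scheme.{u}} {M : Y.Modules}
    (hM : Scheme.Modules.IsInvertible M) : LocFree M ⊤ :=
  fun x _ => (JPb.isInvertible_iff M).1 hM x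

theorem isInvertible_of_locFree {Y : Scheme.{u}} {M : Y.Modules}
    (hM : LocFree M ⊤) : Scheme.Modules.IsInvertible M :=
  (JPb.isInvertible_iff M).2 fun x => hM x trivial

variable {k : Type u} [Field k] {C : Scheme.{u}} {c : C ⟶ Spec (CommRingCat.of k)}
  {ε : SchemeHomOver (𝟙 (Spec (CommRingCat.of k))) c} {X : TwoChart k} (ch : Chart c ε X)

/-- the relation between rigidified classes and line data -/
def Rl {B : Type u} [CommRing B] [Algebra k B] (h : (P c ε).obj (JH.sB k B)) (L : PreLD X B) :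
    Prop :=
  ∃ (𝓜 : (CB c B).Modules) (hM : Scheme.Modules.IsInvertible 𝓜), cl 𝓜 hM = h.1 ∧
    Nonempty ((toLD ch (isPullback_B c B) 𝓜 (locFree_of_isInvertible hM)).Iso L)

variable {B : Type u} [CommRing B] [Algebra k B] {h h' : (P c ε).obj (JH.sB k B)}
  {L L' : PreLD X B}

theorem Rl.ex (h : (P c ε).obj (JH.sB k B)) : ∃ L, Rl ch h L := by
  obtain ⟨𝓜, hM, e⟩ := JPb.exists_cl h.1
  exact ⟨_, 𝓜, hM, e, ⟨isoRefl _⟩⟩

theorem Rl.isLine (H : Rl ch h L) : L.IsLine := by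
  obtain ⟨𝓜, hM, e, ⟨f⟩⟩ := H
  exact isLine_of_iso (toLD_isLine ch (isPullback_B c B) (locFree_of_isInvertible hM)) f

theorem Rl.rig (H : Rl ch h L) : Nonempty L.Rig := by
  obtain ⟨𝓜, hM, e, ⟨f⟩⟩ := H
  have h1 : H1.map (rigSection c (JCB.sB k B) ε) (cl 𝓜 hM) = 1 := by
    rw [e]
    exact h.2
  rw [← JPb.cl_pullback, JPb.cl_eq_one_iff] at h1
  obtain ⟨r⟩ := (JEr.nonempty_rig_iff' ch B (locFree_of_isInvertible hM)).2 h1
  exact ⟨rigIso f r⟩

theorem Rl.eq_iff (H : Rl ch h L) (H' : Rl ch h' L') : h = h' ↔ Nonempty (L.Iso L') := by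
  obtain ⟨𝓜, hM, e, ⟨f⟩⟩ := H
  obtain ⟨𝓜', hM', e', ⟨f'⟩⟩ := H'
  have h1 : h = h' ↔ cl 𝓜 hM = cl 𝓜' hM' := by
    rw [e, e']
    exact ⟨fun h => congrArg Subtype.val h, fun h => Subtype.ext h⟩
  rw [h1, JPb.cl_eq_iff, ← JE3.nonempty_iso_iff ch (isPullback_B c B)
    (locFree_of_isInvertible hM) (locFree_of_isInvertible hM')]
  constructor
  · rintro ⟨g⟩
    exact ⟨isoTrans (isoSymm f) (isoTrans g f')⟩
  · rintro ⟨g⟩
    exact ⟨isoTrans f (isoTrans g (isoSymm f'))⟩

variable {B' : Type u} [CommRing B'] [Algebra k B'] [Algebra B B'] [IsScalarTower k B B']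

theorem Rl.bc (H : Rl ch h L) :
    Rl ch ((P c ε).map (sMap k (IsScalarTower.toAlgHom k B B')) h) (L.baseChange B') := by
  obtain ⟨𝓜, hM, e, ⟨f⟩⟩ := H
  let ψ : SchemeHomOver (JCB.sB k B') (JCB.sB k B) := sMap k (IsScalarTower.toAlgHom k B B')
  have h1 : baseChangeSnd c ψ ≫ pr c B = pr c B' :=
    (pullback.lift_fst _ _ _).trans (Category.comp_id _)
  have h2 : baseChangeSnd c ψ ≫ qr c B = qr c B' ≫
      Spec.map (CommRingCat.ofHom (algebraMap B B')) := pullback.lift_snd _ _ _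
  obtain ⟨g, -⟩ := toLD_baseChange ch (isPullback_B c B) (isPullback_B c B')
    (baseChangeSnd c ψ) h1 h2 (locFree_of_isInvertible hM)
    (locFree_of_isInvertible (hM.pullback (baseChangeSnd c ψ)))
  refine ⟨(Scheme.Modules.pullback (baseChangeSnd c ψ)).obj 𝓜, hM.pullback _, ?_,
    ⟨isoTrans (isoSymm g) (isoBC B' f)⟩⟩
  refine (JPb.cl_pullback (baseChangeSnd c ψ) 𝓜 hM).trans ?_
  rw [e]
  rfl

end Fermat.Agent.JDict

end
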