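import Fermat.Agent.JDict.Dict
import Fermat.Agent.JEb.LD

/-!
# S25: every rigidified line datum comes from a rigidified class
-/

set_option autoImplicit false
set_option maxHeartbeats 400000

noncomputable section

universe u

open CategoryTheory CategoryTheory.Limits AlgebraicGeometry TopologicalSpace Opposite
open NeronModelInfra AlgebraicGeometry.RelPicard
open scoped TensorProduct

namespace Fermat.Agent.JDict

open Fermat.Agent.JPC Fermat.Agent.JKL Fermat.Agent.JCB Fermat.Agent.JE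
open Fermat.Agent.JH (isoRefl isoSymm isoTrans rigIso sMap sOne)
open Fermat.Agent.JPb (Gen un cl)
open Fermat.Agent.JMod (H1)
open Fermat.Agent.JC (P)

variable {k : Type u} [Field k] {C : Scheme.{u}} {c : C ⟶ Spec (CommRingCat.of k)}
  {ε : SchemeHomOver (𝟙 (Spec (CommRingCat.of k))) c} {X : TwoChart k} (ch : Chart c ε X)
  {B : Type u} [CommRing B] [Algebra k B]

theorem Rl.ex' (L : PreLD X B) (hL : L.IsLine) (hr : Nonempty L.Rig) :
    ∃ h : (P c ε).obj (JH.sB k B), Rl ch h L := by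
  obtain ⟨𝓜, hM, ⟨f⟩⟩ := JEb.exists_toLD_iso ch (isPullback_B c B) L hL
  obtain ⟨r⟩ := hr
  have h1 := (JEr.nonempty_rig_iff' ch B hM).1 ⟨rigIso (isoSymm f) r⟩
  have hM' := isInvertible_of_locFree hM
  have h2 : H1.map (rigSection c (JCB.sB k B) ε) (cl 𝓜 hM') = 1 := by
    rw [← JPb.cl_pullback, JPb.cl_eq_one_iff]
    exact h1
  exact ⟨⟨cl 𝓜 hM', h2⟩, 𝓜, hM', rfl, ⟨f⟩⟩

end Fermat.Agent.JDict

end
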