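import Fermat.Agent.JDict.Main
import Fermat.Agent.JTw.Tens
import Fermat.Agent.JTw.Rig

/-!
# S25: the dictionary, final form
-/

set_option autoImplicit false

noncomputable section

universe u

open CategoryTheory CategoryTheory.Limits AlgebraicGeometry NeronModelInfra

namespace Fermat.Agent.JDict

open Fermat.Agent.JPC Fermat.Agent.JCB

variable {k : Type u} [Field k] {C : Scheme.{u}} {c : C ⟶ Spec (CommRingCat.of k)}
  {ε : SchemeHomOver (𝟙 (Spec (CommRingCat.of k))) c} {X : TwoChart k}

/-- **the dictionary** between rigidified classes and line data -/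
def dict (ch : Chart c ε X) : JH.Dict X (JC.P c ε) :=
  dict_of ch (JTw.isLine_triv X) (fun N hN => JTw.nonempty_rig N hN)
    (fun _ _ _ L n l => JTw.tens_twist L n l)

end Fermat.Agent.JDict

end
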