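import Fermat.Agent.JPC.Base

/-!
# S25: base change of isomorphisms of line data
-/

set_option autoImplicit false

noncomputable section

universe u

open TensorProduct

namespace Fermat.Agent.JDict

open Fermat.Agent.JPC

variable {k : Type u} [Field k] {X : TwoChart k} {B : Type u} [CommRing B] [Algebra k B]
  {L L' : PreLD X B} (B' : Type u) [CommRing B'] [Algebra k B'] [Algebra B B']
  [IsScalarTower k B B']

theorem map_baseChange_equiv {M N : Type u} [AddCommGroup M] [Module B M] [AddCommGroup N]
    [Module B N] (e : M ≃ₗ[B] N) (S : Submodule B M) (T : Submodule B N)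
    (h : S.map (e : M →ₗ[B] N) = T) :
    (S.baseChange B').map ((e.baseChange B B' M N : B' ⊗[B] M ≃ₗ[B'] B' ⊗[B] N) :
      B' ⊗[B] M →ₗ[B'] B' ⊗[B] N) = T.baseChange B' := by
  subst h
  rw [Submodule.baseChange_eq_span, Submodule.baseChange_eq_span, Submodule.map_span]
  congr 1
  ext z
  constructor
  · rintro ⟨_, ⟨m, hm, rfl⟩, rfl⟩
    exact ⟨e m, ⟨m, hm, rfl⟩, rfl⟩
  · rintro ⟨_, ⟨m, hm, rfl⟩, rfl⟩
    exact ⟨_, ⟨m, hm, rfl⟩, rfl⟩

/-- base change of an isomorphism of line data -/
def isoBC (f : L.Iso L') : (L.baseChange B').Iso (L'.baseChange B') where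
  e := (f.e.baseChange B B' L.M L'.M : B' ⊗[B] L.M ≃ₗ[B'] B' ⊗[B] L'.M)
  smul a z := by
    induction z using TensorProduct.induction_on with
    | zero =>
      have h1 : a • (0 : (L.baseChange B').M) = 0 := smul_zero a
      have h1' : a • (0 : (L'.baseChange B').M) = 0 := smul_zero a
      have h2 : (f.e.baseChange B B' L.M L'.M) (0 : B' ⊗[B] L.M) = 0 := map_zero _
      refine (congrArg (fun z : B' ⊗[B] L.M => (f.e.baseChange B B' L.M L'.M) z) h1).trans
        (h2.trans (Eq.symm ?_))
      exact (congrArg (fun z => a • (show (L'.baseChange B').M from z)) h2).trans h1'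
    | tmul b m =>
      rw [PreLD.baseChange_smul]
      show (f.e.baseChange B B' L.M L'.M) (b ⊗ₜ (a • m)) =
        a • (show (L'.baseChange B').M from (f.e.baseChange B B' L.M L'.M) (b ⊗ₜ m))
      have h1 : (f.e.baseChange B B' L.M L'.M) (b ⊗ₜ (a • m)) = b ⊗ₜ (f.e (a • m)) := rfl
      have h2 : (f.e.baseChange B B' L.M L'.M) (b ⊗ₜ m) = b ⊗ₜ (f.e m) := rfl
      rw [h1, h2, f.smul]
      exact (PreLD.baseChange_smul L' B' a b (f.e m)).symm
    | add x y hx hy =>
      have h1 : a • (show (L.baseChange B').M from x + y) =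
        a • (show (L.baseChange B').M from x) + a • (show (L.baseChange B').M from y) :=
        smul_add a _ _
      have h2 : (f.e.baseChange B B' L.M L'.M) (x + y) = (f.e.baseChange B B' L.M L'.M) x +
        (f.e.baseChange B B' L.M L'.M) y := map_add _ x y
      have h3 := congrArg (fun z : B' ⊗[B] L.M => (f.e.baseChange B B' L.M L'.M) z) h1
      refine h3.trans ?_
      refine (map_add (f.e.baseChange B B' L.M L'.M) _ _).trans ?_
      refine (congrArg₂ (· + ·) hx hy).trans ?_
      show _ = a • (show (L'.baseChange B').M from (f.e.baseChange B B' L.M L'.M) (x + y))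
      rw [h2]
      exact (smul_add a (show (L'.baseChange B').M from (f.e.baseChange B B' L.M L'.M) x)
        (show (L'.baseChange B').M from (f.e.baseChange B B' L.M L'.M) y)).symm
  map0 := map_baseChange_equiv B' f.e L.M0 L'.M0 f.map0
  map1 := map_baseChange_equiv B' f.e L.M1 L'.M1 f.map1

end Fermat.Agent.JDict

end
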