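import Fermat.Agent.JDict.ExP
import Fermat.Agent.JE3.H1
import Fermat.Agent.JTw.Line

/-!
# S25: the dictionary
-/

set_option autoImplicit false
set_option maxHeartbeats 400000

noncomputable section

universe u

open CategoryTheory CategoryTheory.Limits AlgebraicGeometry TopologicalSpace Opposite
open NeronModelInfra AlgebraicGeometry.RelPicard
open scoped TensorProduct

namespace Fermat.Agent.JDict

open Fermat.Agent.JPC Fermat.Agent.JKL Fermat.Agent.JCB Fermat.Agent.JE
open Fermat.Agent.JH (isoRefl isoSymm isoTrans rigIso sMap sOne)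
open Fermat.Agent.JPb (Gen un cl)
open Fermat.Agent.JMod (H1)
open Fermat.Agent.JC (P)

variable {k : Type u} [Field k] {C : Scheme.{u}} {c : C ⟶ Spec (CommRingCat.of k)}
  {ε : SchemeHomOver (𝟙 (Spec (CommRingCat.of k))) c} {X : TwoChart k} (ch : Chart c ε X)

theorem Rl.mul {B : Type u} [CommRing B] [Algebra k B] {h h' : (P c ε).obj (JH.sB k B)}
    {L L' L'' : PreLD X B} (H : Rl ch h L) (H' : Rl ch h' L') (hL : L''.IsLine)
    (hT : JTw.Tens L L' L'') : Rl ch (h * h') L'' :=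
  JE3.RelLD.mul ch (isPullback_B c B) H H' hL hT

theorem sB_self : JH.sB k k = 𝟙 (Spec (CommRingCat.of k)) := by
  have : CommRingCat.ofHom (algebraMap k k) = 𝟙 (CommRingCat.of k) := rfl
  rw [JH.sB, this, Spec.map_id]

theorem Rl.twist
    (h1 : (JTw.triv X).IsLine) (h2 : ∀ N : PreLD X k, N.IsLine → Nonempty N.Rig)
    (h3 : ∀ (K : Type u) [Field K] [Algebra k K] (L : PreLD X K) (n : ℕ) (l : List (X.A →ₐ[k] k)),
      JTw.Tens L ((((JTw.triv X).twistInf n).twistPts l).baseChange K)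
        ((L.twistInf n).twistPts l))
    {K : Type u} [Field K] [Algebra k K] {h : (P c ε).obj (JH.sB k K)}
    {L : PreLD X K} (H : Rl ch h L) (n : ℕ) (l : List (X.A →ₐ[k] k)) :
    ∃ N : (P c ε).obj (𝟙 (Spec (CommRingCat.of k))),
      Rl ch (h * (P c ε).map (sOne k (JH.sB k K)) N) ((L.twistInf n).twistPts l) := by
  let N0 : PreLD X k := ((JTw.triv X).twistInf n).twistPts l
  have hN0 : N0.IsLine := JTw.isLine_twist (JTw.triv X) h1 n l
  obtain ⟨N', hN'⟩ := Rl.ex' ch N0 hN0 (h2 N0 hN0)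
  refine ⟨(P c ε).map ⟨𝟙 _, by rw [sB_self, Category.id_comp]⟩ N', ?_⟩
  have e : (P c ε).map (sOne k (JH.sB k K)) ((P c ε).map (t := JH.sB k k)
      (t' := 𝟙 (Spec (CommRingCat.of k))) ⟨𝟙 _, by rw [sB_self, Category.id_comp]⟩ N') =
      (P c ε).map (sMap k (IsScalarTower.toAlgHom k k K)) N' := by
    rw [(P c ε).map_comp]
    refine (P c ε).map_congr ?_ _ _ _
    show JH.sB k K ≫ 𝟙 _ = _
    rw [Category.comp_id]
    rfl
  rw [e]
  exact Rl.mul ch H (Rl.bc ch hN') (JTw.isLine_twist L H.isLine n l) (h3 K L n l)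

/-- **the dictionary** -/
def dict_of
    (h1 : (JTw.triv X).IsLine) (h2 : ∀ N : PreLD X k, N.IsLine → Nonempty N.Rig)
    (h3 : ∀ (K : Type u) [Field K] [Algebra k K] (L : PreLD X K) (n : ℕ) (l : List (X.A →ₐ[k] k)),
      JTw.Tens L ((((JTw.triv X).twistInf n).twistPts l).baseChange K)
        ((L.twistInf n).twistPts l)) :
    JH.Dict X (P c ε) where
  rel h L := Rl ch h L
  ex h := Rl.ex ch h
  isLine H := Rl.isLine ch H
  rig H := Rl.rig ch H
  eq_iff H H' := Rl.eq_iff ch H H'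
  ex' L hL hr := Rl.ex' ch L hL hr
  bc H := Rl.bc ch H
  twist H n l := Rl.twist ch h1 h2 h3 H n l

end Fermat.Agent.JDict

end
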